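import Fermat.Agent.Lib.RR.Main
import Fermat.Agent.S24.PlaceBasic

/-!
# GAL-FF, FF2: corollaries of Riemann-Roch over an algebraically closed constant field
(any characteristic).
-/

set_option autoImplicit false

open AlgebraicCurve Module

namespace Fermat.Agent.GAL.FF.Cor

open Fermat.Agent.Lib.RR

variable {K F : Type*} [Field K] [Field F] [Algebra K F]

/-- Over an algebraically closed field all places have degree one. -/
theorem deg_eq_one_of_isAlgClosed [IsAlgClosed K] [IsPreFF K F] (v : Place K F) : v.deg = 1 := by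
  have hbij : Function.Bijective (algebraMap K v.ResidueField) :=
    IsAlgClosed.algebraMap_bijective_of_isIntegral
  unfold Place.deg
  have e : K ≃ₗ[K] v.ResidueField :=
    LinearEquiv.ofBijective (Algebra.linearMap K v.ResidueField) hbij
  rw [← e.finrank_eq, Module.finrank_self]

theorem degree_sub_pt [IsAlgClosed K] [IsPreFF K F] (D : Divisor K F) (v : Place K F) :
    Divisor.degree (D - pt v) = Divisor.degree D - 1 := by
  rw [map_sub, degree_pt, deg_eq_one_of_isAlgClosed]; simp

theorem degree_add_pt [IsAlgClosed K] [IsPreFF K F] (D : Divisor K F) (v : Place K F) :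
    Divisor.degree (D + pt v) = Divisor.degree D + 1 := by
  rw [map_add, degree_pt, deg_eq_one_of_isAlgClosed]; simp

/-- A function without zeros is algebraic over `K`. -/
theorem isAlgebraic_of_forall_ord_le [IsPreFF K F] {f : F} (h : ∀ v : Place K F, v.ord f ≤ 0) :
    IsAlgebraic K f := by
  have hmem : f⁻¹ ∈ riemannRochSpace (0 : Divisor K F) := by
    rw [mem_L_iff]
    right
    intro v
    have := h v
    simp only [Finsupp.coe_zero, Pi.zero_apply, add_zero, divOf_apply, v.ord_inv]
    omega
  have := (isAlgebraic_of_mem_L_zero hmem).inv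
  rwa [inv_inv] at this

theorem exists_zero_of_transcendental [IsPreFF K F] {f : F} (hf : Transcendental K f) :
    ∃ v : Place K F, 0 < v.ord f := by
  by_contra hcon
  push Not at hcon
  exact hf (isAlgebraic_of_forall_ord_le hcon)

theorem exists_algebraMap_eq_of_isAlgebraic' [IsAlgClosed K] {f : F} (hf : IsAlgebraic K f) :
    ∃ c : K, algebraMap K F c = f := by
  have : Algebra.IsAlgebraic K (IntermediateField.adjoin K {f}) :=
    IntermediateField.isAlgebraic_adjoin_simple hf.isIntegral
  have h := IntermediateField.eq_bot_of_isAlgClosed_of_isAlgebraic (IntermediateField.adjoin K {f})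
  have hmem : f ∈ IntermediateField.adjoin K {f} := IntermediateField.mem_adjoin_simple_self K f
  rw [h, IntermediateField.mem_bot] at hmem
  exact hmem

/-- A function field contains a transcendental element. -/
theorem exists_transcendental [IsAlgClosed K] [IsFF K F] : ∃ x : F, Transcendental K x := by
  obtain ⟨B, γ, hB, hγ⟩ := IsFF.riemann (K := K) (F := F)
  obtain ⟨n, hn⟩ : ∃ n : ℕ, γ + 1 < n * Divisor.degree B := by
    obtain ⟨n, hn⟩ := exists_nat_gt (γ + 1)
    refine ⟨n, lt_of_lt_of_le hn ?_⟩
    have : (0 : ℤ) ≤ n := by positivity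
    nlinarith
  have h2 : 1 < ell (n • B) := by
    have := hγ n
    rw [map_nsmul, nsmul_eq_mul] at this
    have h3 : (1 : ℤ) < ell (n • B) := by linarith
    exact_mod_cast h3
  by_contra hcon
  push Not at hcon
  have hle : riemannRochSpace (n • B) ≤ Subalgebra.toSubmodule (⊥ : Subalgebra K F) := by
    intro f _
    have halg : IsAlgebraic K f := by
      have := hcon f
      rwa [Transcendental, not_not] at this
    obtain ⟨c, rfl⟩ := exists_algebraMap_eq_of_isAlgebraic' halg
    exact Subalgebra.algebraMap_mem _ c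
  have h3 : ell (n • B) ≤ 1 := by
    have h5 : finrank K (Subalgebra.toSubmodule (⊥ : Subalgebra K F)) = 1 :=
      Subalgebra.finrank_bot
    have : Module.Finite K (Subalgebra.toSubmodule (⊥ : Subalgebra K F)) :=
      Module.finite_of_finrank_pos (by omega)
    have h4 := Submodule.finrank_mono hle
    unfold ell
    omega
  omega

theorem transcendental_sub_algebraMap {x : F} (hx : Transcendental K x) (c : K) :
    Transcendental K (x - algebraMap K F c) := by
  intro h
  apply hx
  have := h.add (isAlgebraic_algebraMap (A := F) c)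
  rwa [sub_add_cancel] at this

instance infinite_place [IsAlgClosed K] [IsFF K F] : Infinite (Place K F) := by
  obtain ⟨x, hx⟩ := exists_transcendental (K := K) (F := F)
  choose P hP using fun c : K => exists_zero_of_transcendental (transcendental_sub_algebraMap hx c)
  have hinj : Function.Injective P := by
    intro c c' hcc
    by_contra hne
    have h1 := hP c
    have h2 := hP c'
    rw [← hcc] at h2
    set v := P c
    -- `c' - c = (x - c) - (x - c')` has positive order, but it is a non zero constant
    have h3 : algebraMap K F (c' - c) = (x - algebraMap K F c) + -(x - algebraMap K F c') := by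
      rw [map_sub]; ring
    have h0 : algebraMap K F (c' - c) ≠ 0 := by
      rw [Ne, map_eq_zero, sub_eq_zero]
      exact fun h => hne h.symm
    have ha : x - algebraMap K F c ≠ 0 := fun h => by rw [h, v.ord_zero] at h1; omega
    have hb : x - algebraMap K F c' ≠ 0 := fun h => by rw [h, v.ord_zero] at h2; omega
    have hneg : v.ord (-(x - algebraMap K F c')) = v.ord (x - algebraMap K F c') := by
      have e : -(x - algebraMap K F c') = algebraMap K F (-1) * (x - algebraMap K F c') := by
        rw [map_neg, map_one]; ring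
      have hm1 : algebraMap K F (-1) ≠ 0 := by
        rw [Ne, map_eq_zero]; exact neg_ne_zero.mpr one_ne_zero
      rw [e, v.ord_mul hm1 hb, S24.ord_algebraMap, zero_add]
    have h4 := S24.ord_add_ge v (f := x - algebraMap K F c) (g := -(x - algebraMap K F c'))
      (by rw [← h3]; exact h0) ha (neg_ne_zero.mpr hb)
    rw [← h3, S24.ord_algebraMap, hneg] at h4
    omega
  exact Infinite.of_injective P hinj

theorem exists_place_notMem [IsAlgClosed K] [IsFF K F] (s : Finset (Place K F)) :
    ∃ v : Place K F, v ∉ s :=
  Infinite.exists_notMem_finset s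

/-- If `ℓ(A) > 0`, then `ℓ(A - P) = ℓ(A) - 1` for all places `P` outside a finite set. -/
theorem exists_finset_ell_sub_pt [IsAlgClosed K] [IsFF K F] {A : Divisor K F} (h : 0 < ell A) :
    ∃ s : Finset (Place K F), ∀ v ∉ s, ell (A - pt v) + 1 = ell A := by
  classical
  obtain ⟨f, hf0, hf⟩ := ell_pos_iff.1 h
  refine ⟨(divOf f + A).support, fun v hv => ?_⟩
  have hv0 : (divOf (K := K) f + A) v = 0 := by simpa using hv
  have hnot : f ∉ riemannRochSpace (A - pt v) := by
    intro hmem
    rcases mem_L_iff.1 hmem with h0 | h0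
    · exact hf0 h0
    · have := h0 v
      have e : (divOf (K := K) f + (A - pt v)) v = (divOf (K := K) f + A) v - 1 := by
        simp only [Finsupp.coe_add, Finsupp.coe_sub, Pi.add_apply, Pi.sub_apply, pt,
          Finsupp.single_eq_same]
        ring
      rw [e, hv0] at this
      simp at this
  have hle : A - pt v ≤ A := by
    have := le_add_pt (A - pt v) v
    rwa [sub_add_cancel] at this
  have hlt : riemannRochSpace (A - pt v) < riemannRochSpace A :=
    lt_of_le_of_ne (L_mono hle) (fun e => hnot (e ▸ hf))
  have h1 : ell (A - pt v) < ell A := Submodule.finrank_lt_finrank_of_lt hlt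
  have h2 := ell_add_pt_le (A - pt v) v
  rw [sub_add_cancel, deg_eq_one_of_isAlgClosed] at h2
  omega

theorem exists_place_ell_sub_pt [IsAlgClosed K] [IsFF K F] {A : Divisor K F} (h : 0 < ell A)
    (s : Finset (Place K F)) : ∃ v ∉ s, ell (A - pt v) + 1 = ell A := by
  classical
  obtain ⟨s', hs'⟩ := exists_finset_ell_sub_pt h
  obtain ⟨v, hv⟩ := exists_place_notMem (s ∪ s')
  rw [Finset.mem_union, not_or] at hv
  exact ⟨v, hv.1, hs' v hv.2⟩

/-- Successive general points impose independent conditions. -/
theorem exists_effective_ell_sub [IsAlgClosed K] [IsFF K F] (A : Divisor K F)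
    (s : Finset (Place K F)) (i : ℕ) (hi : i ≤ ell A) :
    ∃ E : Divisor K F, 0 ≤ E ∧ Divisor.degree E = i ∧ ell (A - E) + i = ell A ∧
      ∀ v ∈ s, E v = 0 := by
  classical
  induction i with
  | zero => exact ⟨0, le_rfl, by simp, by simp, fun _ _ => rfl⟩
  | succ i ih =>
    obtain ⟨E, hE0, hEd, hEl, hEs⟩ := ih (by omega)
    obtain ⟨v, hv, hvl⟩ := exists_place_ell_sub_pt (A := A - E) (by omega) s
    refine ⟨E + pt v, hE0.trans (le_add_pt E v), ?_, ?_, ?_⟩
    · rw [degree_add_pt, hEd]; push_cast; ring
    · rw [← sub_sub]; omega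
    · intro w hw
      have hne : v ≠ w := fun e => hv (e ▸ hw)
      simp [pt, hEs w hw, hne]

/-- Existence of a non special effective divisor of degree `g` (avoiding a finite set). -/
theorem exists_nonspecial [IsAlgClosed K] [IsFF K F] (s : Finset (Place K F)) :
    ∃ E : Divisor K F, 0 ≤ E ∧ Divisor.degree E = genusFF K F ∧ ell E = 1 ∧ ∀ v ∈ s, E v = 0 := by
  obtain ⟨W, _, hWl, hRR⟩ := riemann_roch (K := K) (F := F)
  obtain ⟨E, hE0, hEd, hEl, hEs⟩ := exists_effective_ell_sub W s (genusFF K F) hWl.ge
  refine ⟨E, hE0, hEd, ?_, hEs⟩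
  have h0 : ell (W - E) = 0 := by omega
  have := hRR E
  rw [hEd, h0] at this
  have h1 : (ell E : ℤ) = 1 := by simpa using this
  exact_mod_cast h1

/-- Base point freeness: `deg D ≥ 2g` implies `ℓ(D - P) = ℓ(D) - 1` for every place `P`. -/
theorem ell_sub_pt_of_le_degree [IsAlgClosed K] [IsFF K F] {D : Divisor K F}
    (h : 2 * (genusFF K F : ℤ) ≤ Divisor.degree D) (v : Place K F) :
    ell (D - pt v) + 1 = ell D := by
  have h1 := ell_eq_of_lt_degree' (D := D) (by linarith)
  have h2 := ell_eq_of_lt_degree' (D := D - pt v) (by rw [degree_sub_pt]; linarith)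
  rw [degree_sub_pt] at h2
  have : (ell (D - pt v) : ℤ) + 1 = ell D := by linarith
  exact_mod_cast this

/-- For `deg D ≥ 2g` and every place `P` there is `f ∈ L(D)` with `ord_P f = - D(P)` exactly. -/
theorem exists_mem_L_ord_eq [IsAlgClosed K] [IsFF K F] {D : Divisor K F}
    (h : 2 * (genusFF K F : ℤ) ≤ Divisor.degree D) (v : Place K F) :
    ∃ f : F, f ≠ 0 ∧ f ∈ riemannRochSpace D ∧ v.ord f = - D v := by
  classical
  have h1 := ell_sub_pt_of_le_degree h v
  have hle : D - pt v ≤ D := by
    have := le_add_pt (D - pt v) v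
    rwa [sub_add_cancel] at this
  have hne : ¬ riemannRochSpace D ≤ riemannRochSpace (D - pt v) := by
    intro hcon
    have := Submodule.finrank_mono hcon
    unfold ell at h1
    omega
  obtain ⟨f, hf, hnf⟩ := SetLike.not_le_iff_exists.1 hne
  have hf0 : f ≠ 0 := fun e => hnf (e ▸ Submodule.zero_mem _)
  refine ⟨f, hf0, hf, ?_⟩
  have h2 : 0 ≤ divOf f + D := (mem_L_iff.1 hf).resolve_left hf0
  have h3 : ¬ (0 ≤ divOf f + (D - pt v)) := fun hc => hnf (mem_L_iff.2 (Or.inr hc))
  by_contra hcon
  apply h3
  intro w
  have hw := h2 w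
  simp only [Finsupp.coe_zero, Pi.zero_apply, Finsupp.coe_add, Pi.add_apply, divOf_apply,
    Finsupp.coe_sub, Pi.sub_apply] at hw ⊢
  by_cases hwv : w = v
  · subst hwv
    simp only [pt, Finsupp.single_eq_same]
    omega
  · have : pt v w = 0 := by simp [pt, Ne.symm hwv]
    rw [this]; omega

end Fermat.Agent.GAL.FF.Cor
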