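import Mathlib
import Fermat.Agent.S24.PrincipalDegree

/-!
# GAL-FF (FF1a): separating variables via Kaehler differentials, any characteristic

`F / k` a field extension, `x : F` with `F / k(x)` finite separable. Then `Ω[F⁄k] = F · dx`,
`dx ≠ 0` when `x` is transcendental, and `f` is a separating variable as soon as `df ≠ 0`.
Consequence: for every `f`, one of `f`, `f * x` is separating or `f` is algebraic.
-/

set_option autoImplicit false
set_option linter.unusedSectionVars false

open Module IntermediateField Polynomial KaehlerDifferential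

namespace Fermat.Agent.GAL.FF

variable {k F : Type*} [Field k] [Field F] [Algebra k F]

theorem D_aeval_eq (x : F) (p : k[X]) :
    D k F (aeval x p) = aeval x (derivative p) • D k F x := by
  simp [(D k F).map_aeval p x]

/-- `d a ∈ F · dx` for `a ∈ k(x)`. -/
theorem exists_D_eq_smul_of_mem_adjoin (x : F) {a : F} (ha : a ∈ k⟮x⟯) :
    ∃ c : F, D k F a = c • D k F x := by
  obtain ⟨p, q, rfl⟩ := (IntermediateField.mem_adjoin_simple_iff k a).1 ha
  rw [Derivation.leibniz_div, D_aeval_eq, D_aeval_eq]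
  refine ⟨(aeval x q)⁻¹ ^ 2 * (aeval x q * aeval x (derivative p)
    - aeval x p * aeval x (derivative q)), ?_⟩
  simp only [smul_smul, ← sub_smul]

/-- `Ω[F⁄k] = F · dx` when `F / k(x)` is separable. -/
theorem exists_eq_smul_D (x : F) [Algebra.IsSeparable k⟮x⟯ F] (ω : Ω[F⁄k]) :
    ∃ c : F, ω = c • D k F x := by
  have hunr : Algebra.FormallyUnramified k⟮x⟯ F := Algebra.FormallyUnramified.of_isSeparable _ _
  have hker : ω ∈ LinearMap.ker (KaehlerDifferential.map k k⟮x⟯ F F) := by
    rw [LinearMap.mem_ker]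
    exact Subsingleton.elim _ _
  rw [← KaehlerDifferential.range_mapBaseChange] at hker
  obtain ⟨t, rfl⟩ := hker
  induction t with
  | zero => exact ⟨0, by simp⟩
  | add a b ha hb =>
    obtain ⟨c, hc⟩ := ha
    obtain ⟨d, hd⟩ := hb
    exact ⟨c + d, by rw [map_add, hc, hd, add_smul]⟩
  | tmul r s =>
    rw [KaehlerDifferential.mapBaseChange_tmul]
    have hs : s ∈ Submodule.span k⟮x⟯ (Set.range (D k k⟮x⟯)) := by
      rw [KaehlerDifferential.span_range_derivation]; trivial
    induction hs using Submodule.span_induction with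
    | mem y hy =>
      obtain ⟨a, rfl⟩ := hy
      rw [KaehlerDifferential.map_D]
      obtain ⟨c, hc⟩ := exists_D_eq_smul_of_mem_adjoin (k := k) x a.2
      refine ⟨r * c, ?_⟩
      rw [mul_smul, ← hc]
      rfl
    | zero => exact ⟨0, by simp⟩
    | add a b _ _ ha hb =>
      obtain ⟨c, hc⟩ := ha
      obtain ⟨d, hd⟩ := hb
      exact ⟨c + d, by rw [map_add, smul_add, hc, hd, add_smul]⟩
    | smul a y _ hy =>
      obtain ⟨c, hc⟩ := hy
      refine ⟨(a : F) * c, ?_⟩
      rw [map_smul, smul_comm, hc, mul_smul]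
      rfl

theorem essFiniteType_of_finiteDimensional (x : F) [FiniteDimensional k⟮x⟯ F] :
    Algebra.EssFiniteType k F := by
  have h1 : Algebra.EssFiniteType k k⟮x⟯ :=
    IntermediateField.essFiniteType_iff.mpr (fg_adjoin_of_finite (Set.finite_singleton x))
  exact Algebra.EssFiniteType.comp k k⟮x⟯ F

/-- `dx ≠ 0` for a transcendental separating variable. -/
theorem D_ne_zero_of_separable (x : F) (hx : Transcendental k x) [FiniteDimensional k⟮x⟯ F]
    [Algebra.IsSeparable k⟮x⟯ F] : D k F x ≠ 0 := by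
  intro h0
  have hsub : Subsingleton Ω[F⁄k] := by
    refine ⟨fun a b => ?_⟩
    obtain ⟨c, rfl⟩ := exists_eq_smul_D (k := k) x a
    obtain ⟨d, rfl⟩ := exists_eq_smul_D (k := k) x b
    rw [h0, smul_zero, smul_zero]
  have hunr : Algebra.FormallyUnramified k F := ⟨hsub⟩
  have hess : Algebra.EssFiniteType k F := essFiniteType_of_finiteDimensional x
  have hsep : Algebra.IsSeparable k F := Algebra.FormallyUnramified.isSeparable k F
  exact hx (Algebra.IsSeparable.isIntegral k x).isAlgebraic

/-- `f` is a separating variable as soon as `df ≠ 0`. -/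
theorem isSeparable_of_D_ne_zero (x : F) [FiniteDimensional k⟮x⟯ F]
    [Algebra.IsSeparable k⟮x⟯ F] (f : F) (hf : D k F f ≠ 0) : Algebra.IsSeparable k⟮f⟯ F := by
  have hess : Algebra.EssFiniteType k F := essFiniteType_of_finiteDimensional x
  have h3 : Algebra.EssFiniteType k⟮f⟯ F := Algebra.EssFiniteType.of_comp k k⟮f⟯ F
  obtain ⟨c, hc⟩ := exists_eq_smul_D (k := k) x (D k F f)
  have hc0 : c ≠ 0 := by
    rintro rfl
    exact hf (by rw [hc, zero_smul])
  have hx : D k F x = c⁻¹ • D k F f := by rw [hc, smul_smul, inv_mul_cancel₀ hc0, one_smul]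
  have hDf : D k⟮f⟯ F f = 0 := by
    exact Derivation.map_algebraMap (D k⟮f⟯ F) (⟨f, mem_adjoin_simple_self k f⟩ : k⟮f⟯)
  have hsub : Subsingleton Ω[F⁄k⟮f⟯] := by
    refine subsingleton_of_forall_eq 0 fun a => ?_
    obtain ⟨ω, rfl⟩ := KaehlerDifferential.map_surjective k k⟮f⟯ F a
    obtain ⟨d, rfl⟩ := exists_eq_smul_D (k := k) x ω
    rw [hx, map_smul, map_smul, KaehlerDifferential.map_D]
    simp [hDf]
  have hunr : Algebra.FormallyUnramified k⟮f⟯ F := ⟨hsub⟩
  exact Algebra.FormallyUnramified.isSeparable k⟮f⟯ F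

theorem transcendental_of_D_ne_zero [IsAlgClosed k] {f : F} (hf : D k F f ≠ 0) :
    Transcendental k f := by
  intro halg
  obtain ⟨c, rfl⟩ := Fermat.Agent.S24.exists_algebraMap_eq_of_isAlgebraic halg
  exact hf (Derivation.map_algebraMap _ _)

/-- If `df = 0` and `f ≠ 0` then `d(f x) ≠ 0`. -/
theorem D_mul_ne_zero (x : F) (hx : Transcendental k x) [FiniteDimensional k⟮x⟯ F]
    [Algebra.IsSeparable k⟮x⟯ F] {f : F} (hf0 : f ≠ 0) (hf : D k F f = 0) :
    D k F (f * x) ≠ 0 := by
  rw [Derivation.leibniz, hf, smul_zero, add_zero]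
  exact smul_ne_zero hf0 (D_ne_zero_of_separable x hx)

end Fermat.Agent.GAL.FF
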