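import Mathlib
import Fermat.Agent.GAL.FF.Separating
import Fermat.Agent.Lib.RR.Riemann

/-!
# GAL-FF (FF1b): `IsFF k F` for `k` algebraically closed of ANY characteristic and
`F` finite separable over `k(x)`.

The first half is a port of `S24/PlaceDeg`, `S24/Zeros`, `S24/PrincipalDegree`
(`CharZero` replaced by separability of `F / k(x)`).  For a general `f` (possibly a `p`-th power)
we use that `f` or `f * x` is a separating variable (`Separating.lean`).
-/

set_option autoImplicit false
set_option linter.unusedSectionVars false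
set_option linter.deprecated false
set_option linter.style.haveILetI false
set_option linter.overlappingInstances false

open IsDedekindDomain WithZero AlgebraicCurve Module IntermediateField Polynomial
open Fermat.Agent.S24 Fermat.Agent.Lib.RR

namespace Fermat.Agent.GAL.FF

open IntermediateField.algebraAdjoinAdjoin

variable {k F : Type*} [Field k] [IsAlgClosed k] [Field F] [Algebra k F]

theorem isSeparable_adjoin_inv (x : F) [h : Algebra.IsSeparable k⟮x⟯ F] :
    Algebra.IsSeparable k⟮x⁻¹⟯ F := by
  rw [adjoin_inv_eq]; exact h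

theorem finiteDimensional_adjoin_inv (x : F) [h : FiniteDimensional k⟮x⟯ F] :
    FiniteDimensional k⟮x⁻¹⟯ F := by
  rw [adjoin_inv_eq]; exact h

theorem adjoin_le_place_sep (v : Place k F) (x : F) (hx : x ∈ v.toValuationSubring)
    (a : Algebra.adjoin k {x}) : (a : F) ∈ v.toValuationSubring := by
  obtain ⟨a, ha⟩ := a
  show a ∈ v.toValuationSubring
  induction ha using Algebra.adjoin_induction with
  | mem y hy => rw [Set.mem_singleton_iff.mp hy]; exact hx
  | algebraMap r => exact v.algebraMap_mem' r
  | add y z _ _ hy hz => exact add_mem hy hz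
  | mul y z _ _ hy hz => exact mul_mem hy hz

theorem exists_const_of_mem_aux_sep (x : F) (hx : Transcendental k x) [FiniteDimensional k⟮x⟯ F]
    [Algebra.IsSeparable k⟮x⟯ F]
    (v : Place k F) (hxv : x ∈ v.toValuationSubring) (a : F) (ha : a ∈ v.toValuationSubring) :
    ∃ c : k, a = algebraMap k F c ∨ 0 < v.ord (a - algebraMap k F c) := by
  let A := Algebra.adjoin k {x}
  let e : k[X] ≃ₐ[k] A := Polynomial.algEquivOfTranscendental k x hx
  have hPID : IsPrincipalIdealRing A :=
    IsPrincipalIdealRing.of_surjective e.toRingEquiv.toRingHom e.surjective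
  have : IsDedekindDomain (integralClosure A F) := integralClosure.isDedekindDomain A k⟮x⟯ F
  have : IsFractionRing (integralClosure A F) F :=
    integralClosure.isFractionRing_of_finite_extension k⟮x⟯ F
  have : Module.Finite A (integralClosure A F) :=
    IsIntegralClosure.finite A k⟮x⟯ F (integralClosure A F)
  have : Algebra.FiniteType k A := Algebra.FiniteType.of_surjective e.toAlgHom e.surjective
  have : Algebra.FiniteType k (integralClosure A F) :=
    Algebra.FiniteType.trans (S := A) inferInstance inferInstance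
  exact exists_const_of_mem_of_dedekind (R := integralClosure A F) v
    (integralClosure_le_place (A := A) v (fun a => adjoin_le_place_sep v x hxv a)) a ha

theorem exists_const_of_mem_sep (x : F) (hx : Transcendental k x) [FiniteDimensional k⟮x⟯ F]
    [Algebra.IsSeparable k⟮x⟯ F]
    (v : Place k F) (a : F) (ha : a ∈ v.toValuationSubring) :
    ∃ c : k, a = algebraMap k F c ∨ 0 < v.ord (a - algebraMap k F c) := by
  rcases v.toValuationSubring.mem_or_inv_mem x with h | h
  · exact exists_const_of_mem_aux_sep x hx v h a ha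
  · have := finiteDimensional_adjoin_inv (k := k) x
    have := isSeparable_adjoin_inv (k := k) x
    exact exists_const_of_mem_aux_sep x⁻¹ (transcendental_inv hx) v h a ha

/-- All places have degree one. -/
theorem place_deg_eq_one_sep (x : F) (hx : Transcendental k x) [FiniteDimensional k⟮x⟯ F]
    [Algebra.IsSeparable k⟮x⟯ F] (v : Place k F) : v.deg = 1 :=
  deg_eq_one_of_forall_exists_const v (exists_const_of_mem_sep x hx v)

/-- The zeros of a separating variable, counted with multiplicity. -/
theorem exists_finset_zeros_sep (x : F) (hx : Transcendental k x) [FiniteDimensional k⟮x⟯ F]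
    [Algebra.IsSeparable k⟮x⟯ F] :
    ∃ Z : Finset (Place k F), (∀ v, v ∈ Z ↔ 0 < v.ord x) ∧
      ∑ v ∈ Z, v.ord x = finrank k⟮x⟯ F := by
  let A := Algebra.adjoin k {x}
  let e : k[X] ≃ₐ[k] A := Polynomial.algEquivOfTranscendental k x hx
  have hPID : IsPrincipalIdealRing A :=
    IsPrincipalIdealRing.of_surjective e.toRingEquiv.toRingHom e.surjective
  let t : A := ⟨x, Algebra.self_mem_adjoin_singleton k x⟩
  have het : e X = t := Polynomial.algEquivOfTranscendental_apply_X k x hx
  have hx0 : x ≠ 0 := by
    rintro rfl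
    exact hx isAlgebraic_zero
  have ht0 : t ≠ 0 := by
    intro h
    have : x = 0 := congrArg Subtype.val h
    exact hx0 this
  have hspan : Ideal.span {t} = Ideal.map e.toRingEquiv.toRingHom (Ideal.span {X}) := by
    rw [Ideal.map_span, Set.image_singleton]
    congr 2
    exact het.symm
  have hmax : (Ideal.span {t}).IsMaximal := by
    rw [hspan]
    exact Ideal.IsMaximal.map_bijective _ e.bijective
      (PrincipalIdealRing.isMaximal_of_irreducible Polynomial.irreducible_X)
  have hres : Function.Surjective (algebraMap k (A ⧸ Ideal.span {t})) := by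
    intro y
    obtain ⟨a, rfl⟩ := Ideal.Quotient.mk_surjective y
    obtain ⟨q, rfl⟩ := e.surjective a
    refine ⟨q.coeff 0, ?_⟩
    rw [IsScalarTower.algebraMap_apply k A (A ⧸ Ideal.span {t})]
    rw [Ideal.Quotient.algebraMap_eq, Ideal.Quotient.eq, Ideal.mem_span_singleton]
    obtain ⟨r, hr⟩ := Polynomial.X_dvd_sub_C (p := q)
    refine ⟨- e r, ?_⟩
    have h1 : e q - algebraMap k A (q.coeff 0) = t * e r := by
      rw [← het, ← map_mul, ← hr, map_sub]
      congr 1
      exact (e.commutes _).symm
    rw [mul_neg, ← h1]; ring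
  have : IsDedekindDomain (integralClosure A F) := integralClosure.isDedekindDomain A k⟮x⟯ F
  have : IsFractionRing (integralClosure A F) F :=
    integralClosure.isFractionRing_of_finite_extension k⟮x⟯ F
  have : Module.Finite A (integralClosure A F) :=
    IsIntegralClosure.finite A k⟮x⟯ F (integralClosure A F)
  obtain ⟨Z, hZ, hsum⟩ := exists_finset_sum_ord (k := k) (A := A) (F := F) k⟮x⟯
    (integralClosure A F) t ht0 hres
  refine ⟨Z, fun v => ?_, hsum⟩
  rw [hZ v]
  constructor
  · rintro ⟨_, h⟩; exact h
  · intro h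
    refine ⟨fun a => adjoin_le_place_sep v x ?_ a, h⟩
    exact mem_of_ord_nonneg v hx0 h.le

/-- Principal divisor of a separating variable. -/
theorem exists_principal_divisor_of_sep (hdeg : ∀ v : Place k F, v.deg = 1)
    (f : F) (htr : Transcendental k f) [FiniteDimensional k⟮f⟯ F] [Algebra.IsSeparable k⟮f⟯ F] :
    ∃ D : Divisor k F, (∀ v : Place k F, D v = v.ord f) ∧ Divisor.degree D = 0 := by
  classical
  have := finiteDimensional_adjoin_inv (k := k) f
  have := isSeparable_adjoin_inv (k := k) f
  obtain ⟨Z0, hZ0, hs0⟩ := exists_finset_zeros_sep f htr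
  obtain ⟨Z1, hZ1, hs1⟩ := exists_finset_zeros_sep f⁻¹ (transcendental_inv htr)
  let D : Divisor k F := Finsupp.onFinset (Z0 ∪ Z1) (fun v => v.ord f) (by
    intro v hv
    rw [Finset.mem_union, hZ0, hZ1, v.ord_inv]
    omega)
  have hD : ∀ v, D v = v.ord f := fun v => rfl
  refine ⟨D, hD, ?_⟩
  rw [degree_eq_sum_of_deg_one hdeg D (Z0 ∪ Z1) Finsupp.support_onFinset_subset]
  have hdisj : Disjoint Z0 Z1 := by
    rw [Finset.disjoint_left]
    intro v h0 h1
    rw [hZ0] at h0
    rw [hZ1, v.ord_inv] at h1
    omega
  rw [Finset.sum_union hdisj]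
  simp only [hD]
  rw [hs0]
  have h2 : ∑ v ∈ Z1, v.ord f = - ∑ v ∈ Z1, v.ord f⁻¹ := by
    rw [← Finset.sum_neg_distrib]
    exact Finset.sum_congr rfl fun v _ => by rw [v.ord_inv]; ring
  rw [h2, hs1, adjoin_inv_eq]
  ring

theorem exists_principal_divisor_of_D_ne_zero (x : F) (hx : Transcendental k x)
    [FiniteDimensional k⟮x⟯ F] [Algebra.IsSeparable k⟮x⟯ F] (f : F)
    (hf : KaehlerDifferential.D k F f ≠ 0) :
    ∃ D : Divisor k F, (∀ v : Place k F, D v = v.ord f) ∧ Divisor.degree D = 0 := by
  have htr : Transcendental k f := transcendental_of_D_ne_zero hf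
  have : FiniteDimensional k⟮f⟯ F := finiteDimensional_adjoin_of_transcendental x f htr
  have : Algebra.IsSeparable k⟮f⟯ F := isSeparable_of_D_ne_zero x f hf
  exact exists_principal_divisor_of_sep (place_deg_eq_one_sep x hx) f htr

theorem exists_principal_divisor_sep (x : F) (hx : Transcendental k x) [FiniteDimensional k⟮x⟯ F]
    [Algebra.IsSeparable k⟮x⟯ F] (f : F) (hf : f ≠ 0) :
    ∃ D : Divisor k F, (∀ v : Place k F, D v = v.ord f) ∧ Divisor.degree D = 0 := by
  by_cases hD : KaehlerDifferential.D k F f = 0
  · obtain ⟨D1, h1, d1⟩ := exists_principal_divisor_of_D_ne_zero x hx (f * x)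
      (D_mul_ne_zero x hx hf hD)
    obtain ⟨D2, h2, d2⟩ := exists_principal_divisor_of_D_ne_zero x hx x
      (D_ne_zero_of_separable x hx)
    have hx0 : x ≠ 0 := by
      rintro rfl
      exact hx isAlgebraic_zero
    refine ⟨D1 - D2, fun v => ?_, by rw [map_sub, d1, d2, sub_zero]⟩
    rw [Finsupp.sub_apply, h1, h2, v.ord_mul hf hx0]
    ring
  · exact exists_principal_divisor_of_D_ne_zero x hx f hD

theorem hasPrincipalDivisors_sep (x : F) (hx : Transcendental k x) [FiniteDimensional k⟮x⟯ F]
    [Algebra.IsSeparable k⟮x⟯ F] : HasPrincipalDivisors k F :=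
  ⟨fun f hf => exists_principal_divisor_sep x hx f hf⟩

/-- **FF1.** A finite separable extension of `k(x)`, `k` algebraically closed of any
characteristic, is a function field in the sense of `Lib/RR`. -/
theorem isFF_of_separable (x : F) (hx : Transcendental k x) [FiniteDimensional k⟮x⟯ F]
    [Algebra.IsSeparable k⟮x⟯ F] : IsFF k F := by
  classical
  have hP := hasPrincipalDivisors_sep x hx
  have hdeg := place_deg_eq_one_sep x hx
  have := finiteDimensional_adjoin_inv (k := k) x
  have := isSeparable_adjoin_inv (k := k) x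
  obtain ⟨Z1, hZ1, hs1⟩ := exists_finset_zeros_sep x⁻¹ (transcendental_inv hx)
  have hpre : IsPreFF k F := by
    refine { hP with finiteResidue := ?_, nonempty := ?_ }
    · intro v
      apply Module.finite_of_finrank_pos
      have := hdeg v
      unfold Place.deg at this
      omega
    · by_contra hne
      have hZ : Z1 = ∅ := by
        rw [Finset.eq_empty_iff_forall_notMem]
        exact fun v _ => hne ⟨v⟩
      rw [hZ, Finset.sum_empty] at hs1
      have : 0 < finrank k⟮x⁻¹⟯ F := Module.finrank_pos
      omega
  let B : Divisor k F := Finsupp.onFinset Z1 (fun v => max 0 (-v.ord x)) (by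
    intro v hv
    rw [hZ1, v.ord_inv]
    by_contra hcon
    exact hv (max_eq_left (by omega)))
  refine isFF_of_var x hx B (fun v => rfl) ?_
  rw [degree_eq_sum_of_deg_one hdeg B Z1 Finsupp.support_onFinset_subset]
  have : ∑ v ∈ Z1, B v = ∑ v ∈ Z1, v.ord x⁻¹ := by
    refine Finset.sum_congr rfl fun v hv => ?_
    have h1 := (hZ1 v).1 hv
    rw [v.ord_inv] at h1 ⊢
    exact max_eq_right (by omega)
  rw [this, hs1, adjoin_inv_eq]

end Fermat.Agent.GAL.FF
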