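import Mathlib
import Fermat.Agent.Lib.RR.Main

/-!
# GAL-FF: general consequences of Riemann-Roch (any characteristic, `K` algebraically closed)

* `General_deg_eq_one` : all places have degree one;
* `infinite_place` : there are infinitely many places;
* `exists_finset_ell_sub_pt` : a general point imposes one condition on `L(D) ≠ 0`;
* `ell_sub_pt_of_le_degree`, `exists_mem_L_ord_eq`, `exists_mem_L_forall_ord_eq` :
  base point freeness for `deg D ≥ 2 g`;
* `exists_nonspecial` : there is an effective divisor `E₀` of degree `g` with `ℓ(E₀) = 1`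
  (reduced, and avoiding any given finite set of places).
-/

set_option autoImplicit false

namespace Fermat.Agent.GAL.FF.General

open AlgebraicCurve Fermat.Agent.Lib.RR

variable {K F : Type*} [Field K] [Field F] [Algebra K F]

theorem General_deg_eq_one [IsAlgClosed K] [IsPreFF K F] (v : Place K F) : v.deg = 1 := by
  have hfin : Module.Finite K v.ResidueField := inferInstance
  have hbij : Function.Bijective (algebraMap K v.ResidueField) :=
    IsAlgClosed.algebraMap_bijective_of_isIntegral
  let e : K ≃ₗ[K] v.ResidueField :=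
    LinearEquiv.ofBijective (Algebra.linearMap K v.ResidueField) hbij
  rw [Place.deg, ← e.finrank_eq, Module.finrank_self]

theorem General_degree_pt [IsAlgClosed K] [IsPreFF K F] (v : Place K F) :
    Divisor.degree (pt v) = 1 := by
  rw [degree_pt, General_deg_eq_one]; rfl

theorem General_sub_pt_self (D : Divisor K F) (v : Place K F) : (D - pt v) v = D v - 1 := by
  simp [pt]

theorem General_sub_pt_of_ne (D : Divisor K F) {v w : Place K F} (h : w ≠ v) :
    (D - pt v) w = D w := by
  simp [pt, Finsupp.single_apply, Ne.symm h]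

theorem General_sub_pt_le (D : Divisor K F) (v : Place K F) : D - pt v ≤ D := by
  have := le_add_pt (D - pt v) v
  rwa [sub_add_cancel] at this

/-- `ℓ(D) ≤ ℓ(D - v) + 1`. -/
theorem ell_le_ell_sub_pt_add_one [IsAlgClosed K] [IsFF K F] (D : Divisor K F) (v : Place K F) :
    ell D ≤ ell (D - pt v) + 1 := by
  have := ell_add_pt_le (D - pt v) v
  rwa [sub_add_cancel, General_deg_eq_one] at this

/-- If some `f ∈ L(D)` has exact order `-D(v)` at `v` then `ℓ(D - v) + 1 = ℓ(D)`. -/
theorem ell_sub_pt_of_ord_eq [IsAlgClosed K] [IsFF K F] {D : Divisor K F} {v : Place K F} {f : F}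
    (hf : f ≠ 0) (hfD : f ∈ riemannRochSpace D) (hv : v.ord f = -D v) :
    ell (D - pt v) + 1 = ell D := by
  have hlt : riemannRochSpace (D - pt v) < riemannRochSpace D := by
    refine lt_of_le_of_ne (L_mono (General_sub_pt_le D v)) fun heq => ?_
    rw [← heq, mem_riemannRochSpace_iff] at hfD
    have := (hfD v).resolve_left hf
    rw [General_sub_pt_self] at this
    omega
  have h1 : ell (D - pt v) < ell D := Submodule.finrank_lt_finrank_of_lt hlt
  have h2 := ell_le_ell_sub_pt_add_one D v
  omega

/-- Conversely. -/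
theorem exists_ord_eq_of_ell_sub_pt [IsFF K F] {D : Divisor K F} {v : Place K F}
    (h : ell (D - pt v) < ell D) :
    ∃ f : F, f ≠ 0 ∧ f ∈ riemannRochSpace D ∧ v.ord f = -D v := by
  by_contra hcon
  push_neg at hcon
  have hle : riemannRochSpace D ≤ riemannRochSpace (D - pt v) := by
    intro f hf
    rw [mem_riemannRochSpace_iff]
    intro w
    by_cases hf0 : f = 0
    · exact Or.inl hf0
    right
    have h1 := ((mem_riemannRochSpace_iff.1 hf) w).resolve_left hf0
    by_cases hw : w = v
    · subst hw
      rw [General_sub_pt_self]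
      have := hcon f hf0 hf
      omega
    · rw [General_sub_pt_of_ne D hw]
      exact h1
  have : ell D ≤ ell (D - pt v) := Submodule.finrank_mono hle
  omega

/-- A nonconstant function exists. -/
theorem exists_not_mem_range_algebraMap [IsAlgClosed K] [IsFF K F] :
    ∃ f : F, f ∉ Set.range (algebraMap K F) := by
  obtain ⟨v⟩ := IsPreFF.nonempty (K := K) (F := F)
  set D : Divisor K F := (genusFF K F + 1) • pt v with hD
  have hdeg : Divisor.degree D = genusFF K F + 1 := by
    rw [hD, map_nsmul, General_degree_pt]; simp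
  have h1 := riemann_ineq D
  rw [ell_zero, hdeg] at h1
  have h2 : 2 ≤ ell D := by
    have : (2 : ℤ) ≤ ell D := by push_cast at h1; linarith
    exact_mod_cast this
  by_contra hcon
  push_neg at hcon
  have hle : riemannRochSpace D ≤ Submodule.span K {(1 : F)} := by
    intro f _
    obtain ⟨a, rfl⟩ := hcon f
    rw [Submodule.mem_span_singleton]
    exact ⟨a, by rw [Algebra.smul_def, mul_one]⟩
  have h3 : ell D ≤ Module.finrank K (Submodule.span K {(1 : F)}) := Submodule.finrank_mono hle
  rw [finrank_span_singleton one_ne_zero] at h3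
  omega

/-- An element without poles is constant. -/
theorem mem_range_algebraMap_of_mem_L_zero [IsAlgClosed K] [IsFF K F] {f : F}
    (hf : f ∈ riemannRochSpace (0 : Divisor K F)) : f ∈ Set.range (algebraMap K F) := by
  have hint : IsIntegral K f := (isAlgebraic_of_mem_L_zero hf).isIntegral
  exact minpoly.mem_range_of_degree_eq_one K f
    (IsAlgClosed.degree_eq_one_of_irreducible K (minpoly.irreducible hint))

/-- A nonconstant function has a pole. -/
theorem exists_ord_neg [IsAlgClosed K] [IsFF K F] {f : F}
    (hf : f ∉ Set.range (algebraMap K F)) : ∃ v : Place K F, v.ord f < 0 := by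
  by_contra hcon
  push_neg at hcon
  apply hf
  apply mem_range_algebraMap_of_mem_L_zero
  rw [mem_riemannRochSpace_iff]
  intro v
  right
  simpa using hcon v

/-- A nonconstant function has a zero. -/
theorem exists_ord_pos [IsAlgClosed K] [IsFF K F] {f : F}
    (hf : f ∉ Set.range (algebraMap K F)) : ∃ v : Place K F, 0 < v.ord f := by
  have hf' : f⁻¹ ∉ Set.range (algebraMap K F) := by
    rintro ⟨a, ha⟩
    apply hf
    exact ⟨a⁻¹, by rw [map_inv₀, ha, inv_inv]⟩
  obtain ⟨v, hv⟩ := exists_ord_neg hf'
  refine ⟨v, ?_⟩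
  rw [v.ord_inv] at hv
  omega

theorem General_val_lt_one_of_ord_pos (v : Place K F) {f : F} (h : 0 < v.ord f) :
    v.adicValuation f < 1 := by
  have h1 : v.adicValuation f ≤ WithZero.exp (-1 : ℤ) :=
    v.adicValuation_le_exp_iff.mpr (Or.inr (by omega))
  refine lt_of_le_of_lt h1 ?_
  rw [← WithZero.exp_zero, WithZero.exp_lt_exp]
  norm_num

theorem General_val_algebraMap (v : Place K F) {a : K} (ha : a ≠ 0) :
    v.adicValuation (algebraMap K F a) = 1 := by
  have hu : IsUnit (algebraMap K v.toValuationSubring a) := (IsUnit.mk0 a ha).map _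
  have := (v.adicValuation_coe_eq_one_iff _).2 hu
  rwa [v.coe_algebraMap] at this

/-- There are infinitely many places. -/
theorem infinite_place [IsAlgClosed K] [IsFF K F] : Infinite (Place K F) := by
  obtain ⟨f, hf⟩ := exists_not_mem_range_algebraMap (K := K) (F := F)
  have hfc : ∀ c : K, f - algebraMap K F c ∉ Set.range (algebraMap K F) := by
    rintro c ⟨a, ha⟩
    apply hf
    exact ⟨a + c, by rw [map_add, ha]; ring⟩
  choose z hz using fun c => exists_ord_pos (hfc c)
  have hinj : Function.Injective z := by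
    intro c c' hcc
    by_contra hne
    have h1 := General_val_lt_one_of_ord_pos _ (hz c)
    have h2 := General_val_lt_one_of_ord_pos _ (hz c')
    rw [← hcc] at h2
    have h3 : (z c).adicValuation ((f - algebraMap K F c') - (f - algebraMap K F c)) < 1 :=
      lt_of_le_of_lt (Valuation.map_sub _ _ _) (max_lt h2 h1)
    have h4 : (f - algebraMap K F c') - (f - algebraMap K F c) = algebraMap K F (c - c') := by
      rw [map_sub]; ring
    rw [h4, General_val_algebraMap _ (sub_ne_zero.2 hne)] at h3
    exact lt_irrefl _ h3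
  have : Infinite K := IsAlgClosed.instInfinite
  exact Infinite.of_injective z hinj

/-- A general point imposes one condition on a nonzero `L(D)`. -/
theorem exists_finset_ell_sub_pt [IsAlgClosed K] [IsFF K F] {D : Divisor K F} (h : 0 < ell D) :
    ∃ s : Finset (Place K F), ∀ v ∉ s, ell (D - pt v) + 1 = ell D := by
  obtain ⟨f, hf, hfD⟩ := ell_pos_iff.1 h
  refine ⟨(divOf f + D).support, fun v hv => ell_sub_pt_of_ord_eq hf hfD ?_⟩
  rw [Finsupp.notMem_support_iff, Finsupp.add_apply, divOf_apply] at hv
  omega

/-- Base point freeness, numerical form. -/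
theorem ell_sub_pt_of_le_degree [IsAlgClosed K] [IsFF K F] {D : Divisor K F}
    (h : 2 * (genusFF K F : ℤ) ≤ Divisor.degree D) (v : Place K F) :
    ell (D - pt v) + 1 = ell D := by
  have h1 := ell_eq_of_lt_degree' (D := D) (by omega)
  have h2 := ell_eq_of_lt_degree' (D := D - pt v) (by rw [map_sub, General_degree_pt]; omega)
  rw [map_sub, General_degree_pt] at h2
  omega

/-- Base point freeness. -/
theorem exists_mem_L_ord_eq [IsAlgClosed K] [IsFF K F] {D : Divisor K F}
    (h : 2 * (genusFF K F : ℤ) ≤ Divisor.degree D) (v : Place K F) :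
    ∃ f : F, f ≠ 0 ∧ f ∈ riemannRochSpace D ∧ v.ord f = -D v :=
  exists_ord_eq_of_ell_sub_pt (by have := ell_sub_pt_of_le_degree h v; omega)

/-- Base point freeness at finitely many places simultaneously. -/
theorem exists_mem_L_forall_ord_eq [IsAlgClosed K] [IsFF K F] {D : Divisor K F}
    (h : 2 * (genusFF K F : ℤ) ≤ Divisor.degree D) (s : Finset (Place K F)) :
    ∃ f : F, f ≠ 0 ∧ f ∈ riemannRochSpace D ∧ ∀ v ∈ s, v.ord f = -D v := by
  classical
  have : Infinite K := IsAlgClosed.instInfinite
  obtain ⟨v₀⟩ := IsPreFF.nonempty (K := K) (F := F)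
  let p : Place K F → Subspace K (riemannRochSpace D) := fun v =>
    (riemannRochSpace (D - pt v)).comap (riemannRochSpace D).subtype
  have hp : ∀ v, p v ≠ ⊤ := by
    intro v htop
    obtain ⟨f, hf, hfD, hv⟩ := exists_mem_L_ord_eq h v
    have : (⟨f, hfD⟩ : riemannRochSpace D) ∈ p v := by rw [htop]; trivial
    have h2 : f ∈ riemannRochSpace (D - pt v) := this
    rw [mem_riemannRochSpace_iff] at h2
    have := (h2 v).resolve_left hf
    rw [General_sub_pt_self] at this
    omega
  have hne := Subspace.biUnion_ne_univ_of_top_notMem (s := (insert v₀ s).image p) (by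
    intro hmem
    obtain ⟨v, _, hv⟩ := Finset.mem_image.1 hmem
    exact hp v hv)
  obtain ⟨⟨f, hfD⟩, hf⟩ := (Set.ne_univ_iff_exists_notMem _).1 hne
  simp only [Set.mem_iUnion, not_exists] at hf
  have hf' : ∀ v ∈ insert v₀ s, f ∉ riemannRochSpace (D - pt v) := by
    intro v hv hmem
    exact hf (p v) (Finset.mem_image_of_mem p hv) hmem
  have hf0 : f ≠ 0 := by
    rintro rfl
    exact hf' v₀ (Finset.mem_insert_self _ _) (Submodule.zero_mem _)
  refine ⟨f, hf0, hfD, fun v hv => ?_⟩
  have h1 := ((mem_riemannRochSpace_iff.1 hfD) v).resolve_left hf0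
  by_contra hne'
  apply hf' v (Finset.mem_insert_of_mem hv)
  rw [mem_riemannRochSpace_iff]
  intro w
  right
  by_cases hw : w = v
  · subst hw
    rw [General_sub_pt_self]
    omega
  · rw [General_sub_pt_of_ne D hw]
    exact ((mem_riemannRochSpace_iff.1 hfD) w).resolve_left hf0

/-- There is a reduced effective divisor `E` of any degree `i ≤ g`, avoiding a given finite set
of places, with `ℓ(E) = 1`. -/
theorem exists_nonspecial_of_le [IsAlgClosed K] [IsFF K F] (s : Finset (Place K F)) (i : ℕ)
    (hi : i ≤ genusFF K F) :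
    ∃ E : Divisor K F, 0 ≤ E ∧ (∀ v, E v ≤ 1) ∧ (∀ v ∈ s, E v = 0) ∧
      Divisor.degree E = i ∧ ell E = 1 := by
  classical
  obtain ⟨W, -, -, hRR⟩ := riemann_roch (K := K) (F := F)
  have := infinite_place (K := K) (F := F)
  induction i with
  | zero => exact ⟨0, le_rfl, fun v => by simp, fun v _ => rfl, by simp, ell_zero⟩
  | succ i ih =>
    obtain ⟨E, hE0, hE1, hEs, hdeg, hell⟩ := ih (by omega)
    have h1 := hRR E
    rw [hdeg, hell] at h1
    have hpos : 0 < ell (W - E) := by
      have : (0 : ℤ) < ell (W - E) := by push_cast at h1; omega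
      exact_mod_cast this
    obtain ⟨t, ht⟩ := exists_finset_ell_sub_pt hpos
    obtain ⟨v, hv⟩ := Infinite.exists_notMem_finset (t ∪ s ∪ E.support)
    simp only [Finset.mem_union, not_or] at hv
    obtain ⟨⟨hvt, hvs⟩, hvE⟩ := hv
    rw [Finsupp.notMem_support_iff] at hvE
    have h2 := ht v hvt
    refine ⟨E + pt v, hE0.trans (le_add_pt E v), fun w => ?_, fun w hw => ?_, ?_, ?_⟩
    · by_cases hw : w = v
      · subst hw; rw [Step_add_pt_self, hvE]; norm_num
      · rw [Step_add_pt_of_ne E hw]; exact hE1 w
    · have hwv : w ≠ v := fun h => hvs (h ▸ hw)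
      rw [Step_add_pt_of_ne E hwv]; exact hEs w hw
    · rw [map_add, hdeg, General_degree_pt]; push_cast; ring
    · have h3 := hRR (E + pt v)
      rw [map_add, hdeg, General_degree_pt, show W - (E + pt v) = W - E - pt v by abel] at h3
      have : (ell (E + pt v) : ℤ) = 1 := by
        have h2' : (ell (W - E - pt v) : ℤ) + 1 = ell (W - E) := by exact_mod_cast h2
        push_cast at h1 h3
        omega
      exact_mod_cast this

/-- There is a reduced effective divisor `E₀` of degree `g`, avoiding a given finite set of places,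
with `ℓ(E₀) = 1`. -/
theorem exists_nonspecial [IsAlgClosed K] [IsFF K F] (s : Finset (Place K F)) :
    ∃ E : Divisor K F, 0 ≤ E ∧ (∀ v, E v ≤ 1) ∧ (∀ v ∈ s, E v = 0) ∧
      Divisor.degree E = genusFF K F ∧ ell E = 1 :=
  exists_nonspecial_of_le s _ le_rfl

end Fermat.Agent.GAL.FF.General
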