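import Mathlib
import Fermat.Agent.GAL.FF.IsFF

/-!
# GAL-FF (FF4a): `IsFF k F` for EVERY function field of one variable over an algebraically closed
field `k` of any characteristic (no separability hypothesis): `F` finite over `k(y)`,
`y` transcendental.  A separating variable exists because `k` is perfect
(`exists_isTranscendenceBasis_and_isSeparable_of_perfectField`).
-/

set_option autoImplicit false
set_option linter.unusedSectionVars false

open Module IntermediateField AlgebraicCurve Fermat.Agent.Lib.RR

namespace Fermat.Agent.GAL.FF

open IntermediateField.algebraAdjoinAdjoin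

variable {k F : Type*} [Field k] [IsAlgClosed k] [Field F] [Algebra k F]

/-- Existence of a separating variable. -/
theorem exists_separating_variable (y : F) (hy : Transcendental k y) [FiniteDimensional k⟮y⟯ F] :
    ∃ x : F, Transcendental k x ∧ FiniteDimensional k⟮x⟯ F ∧ Algebra.IsSeparable k⟮x⟯ F := by
  classical
  have hess : Algebra.EssFiniteType k F := essFiniteType_of_finiteDimensional y
  obtain ⟨s, hs, hsep⟩ := exists_isTranscendenceBasis_and_isSeparable_of_perfectField k F
  have halg : Algebra.IsAlgebraic (Algebra.adjoin k {y}) F := by
    have h1 : Algebra.IsAlgebraic (Algebra.adjoin k {y}) k⟮y⟯ := inferInstance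
    have h2 : Algebra.IsAlgebraic k⟮y⟯ F := inferInstance
    exact Algebra.IsAlgebraic.trans (Algebra.adjoin k {y}) k⟮y⟯ F
  have htr : Algebra.trdeg k F ≤ 1 := by
    have := Algebra.IsAlgebraic.trdeg_le_cardinalMk k ({y} : Set F)
    simpa using this
  have hcard : s.card ≤ 1 := by
    have h1 := hs.cardinalMk_eq_trdeg
    rw [← h1] at htr
    simpa using htr
  have hne : s.Nonempty := by
    by_contra h
    rw [Finset.not_nonempty_iff_eq_empty] at h
    subst h
    apply hy
    have h2 : Algebra.IsAlgebraic (IntermediateField.adjoin k ((∅ : Finset F) : Set F)) F :=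
      inferInstance
    have h3 : IsAlgebraic (IntermediateField.adjoin k ((∅ : Finset F) : Set F)) y :=
      Algebra.IsAlgebraic.isAlgebraic y
    have h4 : Algebra.IsAlgebraic k (IntermediateField.adjoin k ((∅ : Finset F) : Set F)) := by
      rw [Finset.coe_empty, IntermediateField.adjoin_empty]
      infer_instance
    exact h3.restrictScalars k
  obtain ⟨x, hx⟩ : ∃ x, s = {x} := by
    rw [← Finset.card_eq_one]
    have := Finset.card_pos.2 hne
    omega
  subst hx
  have hxtr : Transcendental k x := by
    have h1 := hs.1
    have h2 := h1.transcendental ⟨x, by simp⟩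
    exact h2
  refine ⟨x, hxtr, Fermat.Agent.S24.finiteDimensional_adjoin_of_transcendental y x hxtr, ?_⟩
  have hcoe : (((({x} : Finset F)) : Set F)) = {x} := Finset.coe_singleton x
  rw [hcoe] at hsep
  exact hsep

/-- **FF4a.** Every function field of one variable over an algebraically closed field is `IsFF`. -/
theorem isFF_of_finiteDimensional (y : F) (hy : Transcendental k y) [FiniteDimensional k⟮y⟯ F] :
    IsFF k F := by
  obtain ⟨x, hx, h1, h2⟩ := exists_separating_variable y hy
  exact isFF_of_separable x hx

end Fermat.Agent.GAL.FF
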